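/-
Program H (S18), chapter DESC, leaf (D2-a) (helper27).

`Qbar = AlgebraicClosure ℚ`, `A` a valuation subring of `Qbar` lying over the prime `ℓ`
(prelude `ValuationSubring.LiesOverPrime`), `K ⊂ Qbar` a number field (an intermediate field,
finite over `ℚ`).  Then `AK A K := A ∩ K` is a discrete valuation ring with finite residue field of
characteristic `ℓ`; the inclusion `AK A K → A` is a local homomorphism and induces an injection of
residue fields.  Every finite subset of `Qbar` lies in such a `K`.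
-/
import Mathlib
import Fermat.Prelude.Def_FLTPrelim_Ramification
import Fermat.Prelude.Def_AlgebraicCurve_DivisorClassGroup
import Fermat.Agent.RED.Interface4

set_option autoImplicit false

namespace Fermat.Agent.RED.DESC.NumberFieldDVR27

open NumberField IsDedekindDomain IsDedekindDomain.HeightOneSpectrum
open Fermat.Agent.RED.Interface4

noncomputable section

variable (A : ValuationSubring Qbar) (K : IntermediateField ℚ Qbar)

theorem mem_AK_iff (x : K) : x ∈ AK A K ↔ (x : Qbar) ∈ A := ValuationSubring.mem_comap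

theorem AK_mono_mem {K' : IntermediateField ℚ Qbar} (h : K ≤ K') (x : K) :
    IntermediateField.inclusion h x ∈ AK A K' ↔ x ∈ AK A K := by
  rw [mem_AK_iff, mem_AK_iff]; rfl

/-- Integers of `Qbar` lie in every valuation subring. -/
theorem mem_of_isIntegral {x : Qbar} (hx : IsIntegral ℤ x) : x ∈ A := by
  have h1 : IsIntegral A x := hx.tower_top
  have h2 : IsIntegrallyClosedIn A Qbar := inferInstance
  obtain ⟨y, hy⟩ := IsIntegrallyClosedIn.isIntegral_iff.mp h1
  rw [← hy]; exact y.2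

theorem coe_int_mem (x : 𝓞 K) : (((x : K) : Qbar)) ∈ A :=
  mem_of_isIntegral A (map_isIntegral_int (algebraMap K Qbar) (RingOfIntegers.isIntegral_coe x))

theorem val_int_le_one (x : 𝓞 K) : A.valuation (((x : K) : Qbar)) ≤ 1 :=
  (A.valuation_le_one_iff _).mpr (coe_int_mem A K x)

theorem coe_add (a b : 𝓞 K) :
    (((a + b : 𝓞 K) : K) : Qbar) = ((a : K) : Qbar) + ((b : K) : Qbar) := by
  push_cast; rfl

theorem coe_mul (a b : 𝓞 K) :
    (((a * b : 𝓞 K) : K) : Qbar) = ((a : K) : Qbar) * ((b : K) : Qbar) := by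
  push_cast; rfl

theorem coe_zero : (((0 : 𝓞 K) : K) : Qbar) = 0 := by push_cast; rfl
theorem coe_one : (((1 : 𝓞 K) : K) : Qbar) = 1 := by push_cast; rfl
theorem coe_natCast (n : ℕ) : (((n : 𝓞 K) : K) : Qbar) = n := by push_cast; rfl

/-- The prime of `𝓞 K` cut out by `A`. -/
def primeIdeal : Ideal (𝓞 K) where
  carrier := {x | A.valuation (((x : K) : Qbar)) < 1}
  add_mem' := by
    intro a b ha hb
    change A.valuation _ < 1 at ha hb ⊢
    rw [coe_add]
    exact lt_of_le_of_lt (A.valuation.map_add _ _) (max_lt ha hb)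
  zero_mem' := by
    change A.valuation _ < 1
    rw [coe_zero, map_zero]; exact zero_lt_one
  smul_mem' := by
    intro c x hx
    change A.valuation _ < 1 at hx ⊢
    rw [smul_eq_mul, coe_mul, map_mul]
    exact mul_lt_one_of_nonneg_of_lt_one_right (val_int_le_one A K c) zero_le hx

theorem mem_primeIdeal {x : 𝓞 K} :
    x ∈ primeIdeal A K ↔ A.valuation (((x : K) : Qbar)) < 1 := Iff.rfl

theorem primeIdeal_isPrime : (primeIdeal A K).IsPrime := by
  refine ⟨?_, ?_⟩
  · intro h
    have h1 : (1 : 𝓞 K) ∈ primeIdeal A K := h ▸ Submodule.mem_top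
    rw [mem_primeIdeal, coe_one, map_one] at h1
    exact lt_irrefl _ h1
  · intro x y hxy
    rw [mem_primeIdeal, coe_mul, map_mul] at hxy
    by_contra hcon
    push Not at hcon
    obtain ⟨hx, hy⟩ := hcon
    rw [mem_primeIdeal, not_lt] at hx hy
    have hx1 : A.valuation (((x : K) : Qbar)) = 1 := le_antisymm (val_int_le_one A K x) hx
    have hy1 : A.valuation (((y : K) : Qbar)) = 1 := le_antisymm (val_int_le_one A K y) hy
    rw [hx1, hy1, mul_one] at hxy
    exact lt_irrefl _ hxy

variable {ℓ : ℕ}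

theorem natCast_mem_primeIdeal (hA : A.LiesOverPrime ℓ) : (ℓ : 𝓞 K) ∈ primeIdeal A K := by
  rw [mem_primeIdeal, coe_natCast]
  exact (A.mem_nonunits_iff).mp hA

theorem primeIdeal_ne_bot (hℓ : ℓ ≠ 0) (hA : A.LiesOverPrime ℓ) : primeIdeal A K ≠ ⊥ := by
  intro h
  have h1 := natCast_mem_primeIdeal A K hA
  rw [h, Ideal.mem_bot] at h1
  have h2 : (ℓ : 𝓞 K) ≠ 0 := Nat.cast_ne_zero.mpr hℓ
  exact h2 h1

/-- The height-one prime of `𝓞 K` below `A`. -/
def primeOf (hℓ : ℓ ≠ 0) (hA : A.LiesOverPrime ℓ) : HeightOneSpectrum (𝓞 K) :=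
  ⟨primeIdeal A K, primeIdeal_isPrime A K, primeIdeal_ne_bot A K hℓ hA⟩

theorem AK_ne_top (hℓ : ℓ ≠ 0) (hA : A.LiesOverPrime ℓ) : AK A K ≠ ⊤ := by
  intro h
  have h1 : ((ℓ : K))⁻¹ ∈ AK A K := h ▸ ValuationSubring.mem_top _
  rw [mem_AK_iff] at h1
  have h2 : ((((ℓ : K))⁻¹ : K) : Qbar) = ((ℓ : Qbar))⁻¹ := by push_cast; rfl
  rw [h2] at h1
  rcases (A.mem_nonunits_iff_or).mp hA with h0 | h0
  · exact hℓ (by exact_mod_cast h0)
  · exact h0 h1

/-- The inclusion `A ∩ K → A`. -/
def incl : AK A K →+* A :=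
  (algebraMap K Qbar).restrict (AK A K) A (fun x hx => (mem_AK_iff A K x).mp hx)

@[simp] theorem coe_incl (x : AK A K) : ((incl A K x : A) : Qbar) = ((x : K) : Qbar) := rfl

theorem incl_injective : Function.Injective (incl A K) := by
  intro x y h
  have h1 : ((x : K) : Qbar) = ((y : K) : Qbar) := congrArg (fun z : A => (z : Qbar)) h
  exact Subtype.ext (Subtype.ext h1)

instance isLocalHom_incl : IsLocalHom (incl A K) := by
  constructor
  intro a ha
  obtain ⟨b, hb⟩ := isUnit_iff_exists_inv.mp ha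
  have h1 : ((a : K) : Qbar) * (b : Qbar) = 1 := congrArg (fun z : A => (z : Qbar)) hb
  have ha0 : (a : K) ≠ 0 := by
    intro h0
    rw [h0] at h1
    simp at h1
  have h2 : (((a : K)⁻¹ : K) : Qbar) = (b : Qbar) := by
    have h3 : (((a : K)⁻¹ : K) : Qbar) = ((a : K) : Qbar)⁻¹ := by push_cast; rfl
    rw [h3]
    exact inv_eq_of_mul_eq_one_right h1
  have h4 : (a : K)⁻¹ ∈ AK A K := by
    rw [mem_AK_iff, h2]; exact b.2
  refine isUnit_iff_exists_inv.mpr ⟨⟨(a : K)⁻¹, h4⟩, ?_⟩
  apply Subtype.ext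
  show (a : K) * (a : K)⁻¹ = 1
  exact mul_inv_cancel₀ ha0

/-- The induced map of residue fields. -/
def resMap : IsLocalRing.ResidueField (AK A K) →+* IsLocalRing.ResidueField A :=
  IsLocalRing.ResidueField.map (incl A K)

theorem resMap_residue (x : AK A K) :
    resMap A K (IsLocalRing.residue (AK A K) x) = IsLocalRing.residue A (incl A K x) :=
  IsLocalRing.ResidueField.map_residue (incl A K) x

theorem resMap_injective : Function.Injective (resMap A K) := (resMap A K).injective

theorem residue_eq_iff (x y : AK A K) :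
    IsLocalRing.residue (AK A K) x = IsLocalRing.residue (AK A K) y ↔
      IsLocalRing.residue A (incl A K x) = IsLocalRing.residue A (incl A K y) := by
  rw [← resMap_residue, ← resMap_residue]
  exact (resMap_injective A K).eq_iff.symm

theorem mem_maximalIdeal_iff (x : AK A K) :
    x ∈ IsLocalRing.maximalIdeal (AK A K) ↔ incl A K x ∈ IsLocalRing.maximalIdeal A := by
  rw [IsLocalRing.mem_maximalIdeal, IsLocalRing.mem_maximalIdeal, mem_nonunits_iff,
    mem_nonunits_iff, isUnit_map_iff]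

theorem natCast_mem_maximalIdeal (hA : A.LiesOverPrime ℓ) :
    (ℓ : AK A K) ∈ IsLocalRing.maximalIdeal (AK A K) := by
  rw [mem_maximalIdeal_iff, map_natCast, IsLocalRing.mem_maximalIdeal, mem_nonunits_iff]
  intro hu
  have h1 : ((ℓ : A) : Qbar) ∈ A.nonunits := by
    have : ((ℓ : A) : Qbar) = (ℓ : Qbar) := by push_cast; rfl
    rw [this]; exact hA
  rw [A.mem_nonunits_iff_exists_mem_maximalIdeal] at h1
  obtain ⟨ha, h2⟩ := h1
  exact h2 hu

variable [FiniteDimensional ℚ K]

instance : NumberField K := ⟨⟩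

theorem atPrime_le_AK (hℓ : ℓ ≠ 0) (hA : A.LiesOverPrime ℓ) :
    valuationSubringAtPrime K (primeOf A K hℓ hA) ≤ AK A K := by
  rw [valuationSubringAtPrime_eq_valuationSubring]
  intro x hx
  obtain ⟨n, d, hnd⟩ := exists_primeCompl_mul_eq_of_integer (primeOf A K hℓ hA) x
    ((Valuation.mem_valuationSubring_iff _ _).mp hx)
  rw [mem_AK_iff]
  have hd : A.valuation ((((d : 𝓞 K) : K) : Qbar)) = 1 := by
    have h1 : ¬ A.valuation ((((d : 𝓞 K) : K) : Qbar)) < 1 := d.2
    exact le_antisymm (val_int_le_one A K d) (not_lt.mp h1)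
  have hn := val_int_le_one A K n
  have hx' : (x : Qbar) * ((((d : 𝓞 K) : K) : Qbar)) = (((n : 𝓞 K) : K) : Qbar) := by
    have := congrArg (fun z : K => (z : Qbar)) hnd
    simpa using this
  rw [← A.valuation_le_one_iff]
  have h3 : A.valuation (x : Qbar) * A.valuation ((((d : 𝓞 K) : K) : Qbar)) ≤ 1 := by
    rw [← map_mul, hx']; exact hn
  rwa [hd, mul_one] at h3

theorem AK_eq (hℓ : ℓ ≠ 0) (hA : A.LiesOverPrime ℓ) :
    AK A K = valuationSubringAtPrime K (primeOf A K hℓ hA) :=
  (ValuationSubring.eq_of_le_of_ne_top _ (atPrime_le_AK A K hℓ hA) (AK_ne_top A K hℓ hA)).symm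


theorem isPrincipalIdealRing_AK (hℓ : ℓ ≠ 0) (hA : A.LiesOverPrime ℓ) :
    IsPrincipalIdealRing (AK A K) := by
  rw [AK_eq A K hℓ hA]; infer_instance

/-- `A ∩ K` is a discrete valuation ring. -/
theorem isDiscreteValuationRing_AK (hℓ : ℓ ≠ 0) (hA : A.LiesOverPrime ℓ) :
    IsDiscreteValuationRing (AK A K) := by
  have h1 := isPrincipalIdealRing_AK A K hℓ hA
  exact
    { not_a_field' := by
        rw [ne_eq, ← IsLocalRing.isField_iff_maximalIdeal_eq]
        exact ValuationSubring.not_isField_of_ne_top K (AK_ne_top A K hℓ hA) }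

theorem finite_residueField_atPrime (v : HeightOneSpectrum (𝓞 K)) :
    Finite (IsLocalRing.ResidueField (valuationSubringAtPrime K v)) := by
  have h1 : v.asIdeal.IsMaximal := v.isMaximal
  have h2 : Finite (𝓞 K ⧸ v.asIdeal) := v.asIdeal.finiteQuotientOfFreeOfNeBot v.ne_bot
  have e := IsLocalization.AtPrime.equivQuotMaximalIdeal v.asIdeal (valuationSubringAtPrime K v)
  exact Finite.of_equiv _ e.toEquiv

/-- The residue field of `A ∩ K` is finite. -/
theorem finite_residueField_AK (hℓ : ℓ ≠ 0) (hA : A.LiesOverPrime ℓ) :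
    Finite (IsLocalRing.ResidueField (AK A K)) := by
  rw [AK_eq A K hℓ hA]
  exact finite_residueField_atPrime K _

omit [FiniteDimensional ℚ K] in
/-- The residue field of `A ∩ K` has characteristic `ℓ`. -/
theorem charP_residueField_AK (hℓ : ℓ.Prime) (hA : A.LiesOverPrime ℓ) :
    CharP (IsLocalRing.ResidueField (AK A K)) ℓ := by
  rw [CharP.charP_iff_prime_eq_zero hℓ]
  have h1 := natCast_mem_maximalIdeal A K hA
  rw [← IsLocalRing.residue_eq_zero_iff] at h1
  rwa [map_natCast] at h1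

theorem isAlgebraic_Qbar : Algebra.IsAlgebraic ℚ Qbar := AlgebraicClosure.isAlgebraic ℚ

/-- Every finite subset of `Qbar` lies in a number field containing a given one. -/
theorem exists_numberField (K₀ : IntermediateField ℚ Qbar) [FiniteDimensional ℚ K₀]
    (S : Finset Qbar) :
    ∃ K : IntermediateField ℚ Qbar, FiniteDimensional ℚ K ∧ K₀ ≤ K ∧ ∀ x ∈ S, x ∈ K := by
  have h0 := isAlgebraic_Qbar
  have h1 : FiniteDimensional ℚ (IntermediateField.adjoin ℚ (S : Set Qbar)) :=
    IntermediateField.finiteDimensional_adjoin (fun x _ => (Algebra.IsAlgebraic.isAlgebraic (R := ℚ) x).isIntegral)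
  refine ⟨K₀ ⊔ IntermediateField.adjoin ℚ (S : Set Qbar), inferInstance, le_sup_left, ?_⟩
  intro x hx
  exact (le_sup_right : IntermediateField.adjoin ℚ (S : Set Qbar) ≤ _)
    (IntermediateField.subset_adjoin ℚ _ (Finset.mem_coe.mpr hx))

end

end Fermat.Agent.RED.DESC.NumberFieldDVR27
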