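/-
Program H (S18), chapter RED/DESC, helper1: functoriality of `laurentBaseChange` in the coefficient
field and descent of elements of `L · F₀ ⊂ L((q))` (`L/ℚ` algebraic) to a number field:

* `coeffMap_mem_laurentBaseChange_of_algHom` : `φ : K →ₐ[ℚ] L` maps `K · F₀` into `L · F₀`;
* `exists_finite_descent` : every `x ∈ L · F₀` is `coeffMap (K → L) x'` with `x' ∈ K · F₀` for a
  finite-dimensional intermediate field `K` of `L/ℚ` containing any prescribed finite-dimensional
  `K₀`.
-/
import Mathlib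
import Fermat.Prelude.Def_ModularCurve_LaurentCoeff

set_option autoImplicit false
set_option linter.unusedSectionVars false
set_option linter.style.haveILetI false

noncomputable section

namespace Fermat.Agent.RED.DESC.CoeffDescent1

open HahnSeries IntermediateField ModularCurve

section Functoriality

variable {K L : Type*} [Field K] [Field L] [Algebra ℚ K] [Algebra ℚ L] (φ : K →+* L)
variable (F₀ : IntermediateField ℚ (LaurentSeries ℚ))

theorem coeffMap_coeffEmb_of_algHom (x : LaurentSeries ℚ) :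
    coeffMap φ (coeffEmb K x) = coeffEmb L x := by
  rw [coeffEmb, coeffMap_coeffMap]
  exact coeffMap_congr (RingHom.ext fun c => φ.map_rat_algebraMap c) x

/-- `laurentBaseChange` does not depend on the choice of the `ℚ`-algebra structure. -/
theorem laurentBaseChange_congr (i₁ i₂ : Algebra ℚ K) :
    @laurentBaseChange K _ i₁ F₀ = @laurentBaseChange K _ i₂ F₀ := by
  have : i₁ = i₂ := Subsingleton.elim _ _
  subst this
  rfl

theorem coeffMap_algebraMap_of_ringHom (ψ : K →+* L) (c : K) :
    coeffMap ψ (algebraMap K (LaurentSeries K) c) = algebraMap L (LaurentSeries L) (ψ c) := by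
  rw [algebraMap_laurentSeries_eq_single, algebraMap_laurentSeries_eq_single, coeffMap_single]

theorem coeffMap_injective_of_injective {R S : Type*} [CommRing R] [CommRing S] (ψ : R →+* S)
    (hψ : Function.Injective ψ) : Function.Injective (coeffMap ψ) := by
  intro x y h
  ext n
  apply hψ
  have := congrArg (fun z => z.coeff n) h
  simpa using this

theorem coeffMap_injective (ψ : K →+* L) : Function.Injective (coeffMap ψ) :=
  coeffMap_injective_of_injective ψ ψ.injective

/-- `coeffMap φ` maps `K · F₀` into `L · F₀`. -/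
theorem coeffMap_mem_laurentBaseChange_of_algHom {x : LaurentSeries K}
    (hx : x ∈ laurentBaseChange K F₀) : coeffMap φ x ∈ laurentBaseChange L F₀ := by
  rw [mem_laurentBaseChange_iff] at hx
  induction hx using Subfield.closure_induction with
  | mem y hy =>
      rcases hy with ⟨a, rfl⟩ | ⟨z, hz, rfl⟩
      · rw [coeffMap_algebraMap_of_ringHom]
        exact (laurentBaseChange L F₀).algebraMap_mem _
      · rw [coeffMap_coeffEmb_of_algHom]
        exact coeffEmb_mem_laurentBaseChange L hz
  | one => simp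
  | add x y _ _ hx hy => simpa using add_mem hx hy
  | neg x _ hx => simpa using neg_mem hx
  | inv x _ hx => simpa using inv_mem hx
  | mul x y _ _ hx hy => simpa using mul_mem hx hy

end Functoriality

section Descent

variable {L : Type*} [Field L] [Algebra ℚ L] [Algebra.IsAlgebraic ℚ L]
variable (F₀ : IntermediateField ℚ (LaurentSeries ℚ))

/-- The property "`x` comes from `K · F₀` for a finite-dimensional `K ≥ K₀`". -/
def DescendsOver (K₀ : IntermediateField ℚ L) (x : LaurentSeries L) : Prop :=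
  ∃ (K : IntermediateField ℚ L), K₀ ≤ K ∧ FiniteDimensional ℚ K ∧
    ∃ x' : LaurentSeries K, x' ∈ laurentBaseChange K F₀ ∧
      coeffMap (algebraMap K L) x' = x

variable {F₀}

/-- The inclusion of intermediate fields as a plain ring homomorphism. -/
def inclRingHom {K K' : IntermediateField ℚ L} (h : K ≤ K') : ↥K →+* ↥K' where
  toFun x := ⟨x.1, h x.2⟩
  map_one' := rfl
  map_mul' _ _ := rfl
  map_zero' := rfl
  map_add' _ _ := rfl

@[simp] theorem coe_inclRingHom {K K' : IntermediateField ℚ L} (h : K ≤ K') (x : K) :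
    ((inclRingHom h x : K') : L) = (x : L) := rfl

/-- Enlarging the field of definition. -/
theorem exists_lift_of_le {K K' : IntermediateField ℚ L} (h : K ≤ K') {x' : LaurentSeries K}
    (hx' : x' ∈ laurentBaseChange K F₀) :
    ∃ x'' : LaurentSeries K', x'' ∈ laurentBaseChange K' F₀ ∧
      coeffMap (algebraMap K' L) x'' = coeffMap (algebraMap K L) x' := by
  refine ⟨coeffMap (inclRingHom h) x',
    coeffMap_mem_laurentBaseChange_of_algHom _ F₀ hx', ?_⟩
  rw [coeffMap_coeffMap]
  exact coeffMap_congr (RingHom.ext fun c => rfl) x'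

theorem descendsOver_mono {K₀ K₁ : IntermediateField ℚ L} (_h : K₀ ≤ K₁) [FiniteDimensional ℚ K₁]
    {x : LaurentSeries L} (hx : DescendsOver F₀ K₀ x) : DescendsOver F₀ K₁ x := by
  obtain ⟨K, hK₀, hfin, x', hx', rfl⟩ := hx
  haveI := hfin
  obtain ⟨x'', hx'', h''⟩ := exists_lift_of_le (le_sup_left : K ≤ K ⊔ K₁) hx'
  exact ⟨K ⊔ K₁, le_sup_right, inferInstance, x'', hx'', h''⟩

/-- **Descent to a number field.** -/
theorem exists_finite_descent (K₀ : IntermediateField ℚ L) [FiniteDimensional ℚ K₀]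
    {x : LaurentSeries L} (hx : x ∈ laurentBaseChange L F₀) : DescendsOver F₀ K₀ x := by
  rw [mem_laurentBaseChange_iff] at hx
  induction hx using Subfield.closure_induction with
  | mem y hy =>
      rcases hy with ⟨a, rfl⟩ | ⟨z, hz, rfl⟩
      · -- a constant
        haveI : FiniteDimensional ℚ ℚ⟮a⟯ :=
          adjoin.finiteDimensional (Algebra.IsIntegral.isIntegral a)
        refine ⟨K₀ ⊔ ℚ⟮a⟯, le_sup_left, inferInstance,
          algebraMap _ _ (⟨a, le_sup_right (a := K₀) (mem_adjoin_simple_self ℚ a)⟩ :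
            ↥(K₀ ⊔ ℚ⟮a⟯)), (laurentBaseChange _ F₀).algebraMap_mem _, ?_⟩
        rw [coeffMap_algebraMap_of_ringHom]
        rfl
      · refine ⟨K₀, le_rfl, inferInstance, coeffEmb K₀ z, coeffEmb_mem_laurentBaseChange _ hz, ?_⟩
        exact coeffMap_coeffEmb_of_algHom (algebraMap K₀ L) z
  | one =>
      exact ⟨K₀, le_rfl, inferInstance, 1, one_mem _, map_one _⟩
  | add x y _ _ hx hy =>
      obtain ⟨K₁, h₁, hfin₁, x', hx', rfl⟩ := hx
      haveI := hfin₁
      obtain ⟨K₂, h₂, hfin₂, y', hy', rfl⟩ := hy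
      haveI := hfin₂
      obtain ⟨x'', hx'', ex⟩ := exists_lift_of_le (le_sup_left : K₁ ≤ K₁ ⊔ K₂) hx'
      obtain ⟨y'', hy'', ey⟩ := exists_lift_of_le (le_sup_right : K₂ ≤ K₁ ⊔ K₂) hy'
      exact ⟨K₁ ⊔ K₂, h₁.trans le_sup_left, inferInstance, x'' + y'', add_mem hx'' hy'',
        by rw [map_add, ex, ey]⟩
  | neg x _ hx =>
      obtain ⟨K₁, h₁, hfin₁, x', hx', rfl⟩ := hx
      exact ⟨K₁, h₁, hfin₁, -x', neg_mem hx', map_neg _ _⟩
  | inv x _ hx =>
      obtain ⟨K₁, h₁, hfin₁, x', hx', rfl⟩ := hx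
      exact ⟨K₁, h₁, hfin₁, x'⁻¹, inv_mem hx', map_inv₀ _ _⟩
  | mul x y _ _ hx hy =>
      obtain ⟨K₁, h₁, hfin₁, x', hx', rfl⟩ := hx
      haveI := hfin₁
      obtain ⟨K₂, h₂, hfin₂, y', hy', rfl⟩ := hy
      haveI := hfin₂
      obtain ⟨x'', hx'', ex⟩ := exists_lift_of_le (le_sup_left : K₁ ≤ K₁ ⊔ K₂) hx'
      obtain ⟨y'', hy'', ey⟩ := exists_lift_of_le (le_sup_right : K₂ ≤ K₁ ⊔ K₂) hy'
      exact ⟨K₁ ⊔ K₂, h₁.trans le_sup_left, inferInstance, x'' * y'', mul_mem hx'' hy'',
        by rw [map_mul, ex, ey]⟩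

end Descent

end Fermat.Agent.RED.DESC.CoeffDescent1
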