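/-
Program H (S18), chapter DESC (helper27): **(EXT)** — extension of places along an algebraic
extension of the constant field.

* `isPrincipalIdealRing_of_dedekind_le` : a valuation subring `≠ ⊤` of `F` that contains a Dedekind
  domain with fraction field `F` is the localisation at its centre, hence a principal ideal ring.
* `exists_dominating` : Chevalley (Mathlib `LocalSubring.exists_le_valuationSubring`) for the image
  of a valuation subring under a field embedding.
* `exists_place_above_abstract` : `L/K` algebraic, `L` algebraically closed of characteristic `0`,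
  `FL/L` a function field in one variable (`X0.FF.IsGen`), `ι : FK → FL` compatible with `K → L`:
  every place `w` of `FK/K` has a place `v` of `FL/L` above it, `ord_v ∘ ι = e · ord_w`, `e ≥ 1`.
* `baseChangeHom M K : FK M K →+* Fbar M`, `exists_place_above`, `exists_place_above_mem` :
  the concrete form for `K·F_M ⊂ K((q))` and `ℚ̄·F_M ⊂ ℚ̄((q))`.
-/
import Mathlib
import Fermat.Prelude.Def_AlgebraicCurve_DivisorClassGroup
import Fermat.Agent.X0.FFSum
import Fermat.Agent.X0.FFExchange
import Fermat.Agent.X0.FFPlace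
import Fermat.Agent.X0.FFConst
import Fermat.Agent.RED.Interface4
import Fermat.Agent.RED.DESC.CoeffDescent1
import Fermat.Agent.RED.TOP.FbarFacts20

set_option autoImplicit false
set_option linter.unusedSectionVars false

namespace Fermat.Agent.RED.DESC.PlaceExtend27

open AlgebraicCurve IsDedekindDomain IsLocalRing ModularCurve HahnSeries
open Fermat.Agent.X0 Fermat.Agent.RED.Interface4

noncomputable section

section GenDVR

variable {F : Type*} [Field F] {B : Type*} [CommRing B] [IsDedekindDomain B] [Algebra B F]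
  [IsFractionRing B F] (V : ValuationSubring F) (hB : ∀ b : B, algebraMap B F b ∈ V)

/-- The ring hom `B → V` when `B ⊆ V`. -/
def toV : B →+* V := (algebraMap B F).codRestrict V.toSubring hB

@[simp] theorem coe_toV (b : B) : ((toV V hB b : V) : F) = algebraMap B F b := rfl

/-- The centre of `V` on `B`. -/
def centre : Ideal B := (maximalIdeal V).comap (toV V hB)

instance centre_isPrime : (centre V hB).IsPrime := Ideal.comap_isPrime _ _

theorem mem_centre_iff (b : B) : b ∈ centre V hB ↔ ¬ IsUnit (toV V hB b) := by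
  rw [centre, Ideal.mem_comap, mem_maximalIdeal, mem_nonunits_iff]

theorem inv_mem_of_not_mem_centre {s : B} (hs : s ∉ centre V hB) :
    (algebraMap B F s)⁻¹ ∈ V := by
  rw [mem_centre_iff, not_not] at hs
  obtain ⟨u, hu⟩ := hs
  have h1 : ((u⁻¹ : Vˣ) : V) * toV V hB s = 1 := by rw [← hu]; exact u.inv_mul
  have h2 : (((u⁻¹ : Vˣ) : V) : F) * (algebraMap B F s) = 1 := congrArg Subtype.val h1
  rw [← eq_inv_of_mul_eq_one_left h2]
  exact ((u⁻¹ : Vˣ) : V).2

theorem centre_ne_bot (hV : V ≠ ⊤) : centre V hB ≠ ⊥ := by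
  intro h
  apply hV
  rw [eq_top_iff]
  intro x _
  obtain ⟨a, b, hb, hab⟩ := IsFractionRing.div_surjective (A := B) x
  have hb0 : b ∉ centre V hB := by
    rw [h, Ideal.mem_bot]
    exact nonZeroDivisors.ne_zero hb
  rw [← hab, div_eq_mul_inv]
  exact V.mul_mem _ _ (hB a) (inv_mem_of_not_mem_centre V hB hb0)

/-- The centre as a height-one prime. -/
def centreSpec (hV : V ≠ ⊤) : HeightOneSpectrum B :=
  ⟨centre V hB, inferInstance, centre_ne_bot V hB hV⟩

theorem valuationSubringAtPrime_le (hV : V ≠ ⊤) :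
    HeightOneSpectrum.valuationSubringAtPrime F (centreSpec V hB hV) ≤ V := by
  rintro x ⟨a, s, hs, rfl⟩
  exact V.mul_mem _ _ (hB a) (inv_mem_of_not_mem_centre V hB hs)

theorem eq_valuationSubringAtPrime (hV : V ≠ ⊤) :
    HeightOneSpectrum.valuationSubringAtPrime F (centreSpec V hB hV) = V :=
  ValuationSubring.eq_of_le_of_ne_top _ (valuationSubringAtPrime_le V hB hV) hV

include hB in
/-- A valuation subring `≠ ⊤` of `F` containing a Dedekind domain with fraction field `F` is a
principal ideal ring (it is the localisation at its centre). -/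
theorem isPrincipalIdealRing_of_dedekind_le (hV : V ≠ ⊤) : IsPrincipalIdealRing V := by
  have h := eq_valuationSubringAtPrime V hB hV
  have h1 : IsDiscreteValuationRing
      (HeightOneSpectrum.valuationSubringAtPrime F (centreSpec V hB hV)) :=
    IsLocalization.AtPrime.isDiscreteValuationRing_of_dedekind_domain B
      (centreSpec V hB hV).ne_bot _
  rw [h] at h1
  infer_instance

end GenDVR

section Extend

variable {K L FK FL : Type*} [Field K] [Field L] [Field FK] [Field FL]
  [Algebra K FK] [Algebra L FL] [Algebra K L]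
  (ι : FK →+* FL) (hι : ∀ c : K, ι (algebraMap K FK c) = algebraMap L FL (algebraMap K L c))

/-- Chevalley: a valuation subring of `FL` dominating the image of a valuation subring of `FK`. -/
theorem exists_dominating (O : ValuationSubring FK) :
    ∃ V : ValuationSubring FL, (∀ a ∈ O, ι a ∈ V) ∧
      ∀ a : FK, a ∈ O → a⁻¹ ∉ O → (ι a)⁻¹ ∉ V := by
  classical
  let S : Subring FL := O.toSubring.map ι
  let e : O.toSubring ≃+* S := O.toSubring.equivMapOfInjective ι ι.injective
  have hO : IsLocalRing O.toSubring := O.isLocalRing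
  have hS : IsLocalRing S := e.isLocalRing
  obtain ⟨V, hle, hloc⟩ := (@LocalSubring.mk _ _ S hS).exists_le_valuationSubring
  have hmem : ∀ a ∈ O, ι a ∈ V := fun a ha => hle (Subring.mem_map.mpr ⟨a, ha, rfl⟩)
  refine ⟨V, hmem, ?_⟩
  intro a ha hna hinv
  -- `ι a` is a unit of `V`, hence of `S`, hence `a` is a unit of `O`
  have ha0 : a ≠ 0 := by
    rintro rfl
    exact hna (by simp [O.zero_mem])
  let x : S := ⟨ι a, Subring.mem_map.mpr ⟨a, ha, rfl⟩⟩
  have hx : IsUnit (Subring.inclusion hle x) := by
    refine isUnit_iff_exists_inv.mpr ⟨⟨(ι a)⁻¹, hinv⟩, ?_⟩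
    apply Subtype.ext
    show ι a * (ι a)⁻¹ = 1
    exact mul_inv_cancel₀ ((map_ne_zero ι).mpr ha0)
  have hx' : IsUnit x := hloc.map_nonunit x hx
  have hea : e ⟨a, ha⟩ = x := rfl
  have hu : IsUnit (⟨a, ha⟩ : O.toSubring) := by
    rw [← hea] at hx'
    exact (isUnit_map_iff e _).mp hx'
  obtain ⟨b, hb⟩ := isUnit_iff_exists_inv.mp hu
  have h1 : a * (b : FK) = 1 := congrArg Subtype.val hb
  have h2 : a⁻¹ = (b : FK) := inv_eq_of_mul_eq_one_right h1
  exact hna (h2 ▸ b.2)

end Extend

/-- Valuation subrings are integrally closed: a root of a monic polynomial with coefficients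
(via a ring hom `g`) in `V` lies in `V`. -/
theorem mem_of_monic_root {R F : Type*} [CommRing R] [Field F] (V : ValuationSubring F)
    (g : R →+* F) (hg : ∀ r, g r ∈ V) {y : F}
    (hy : ∃ p : Polynomial R, p.Monic ∧ p.eval₂ g y = 0) : y ∈ V := by
  obtain ⟨p, hp, hpy⟩ := hy
  let φ : R →+* V := g.codRestrict V.toSubring hg
  have h1 : IsIntegral V y := by
    refine ⟨p.map φ, hp.map φ, ?_⟩
    rw [Polynomial.eval₂_map]
    exact hpy
  obtain ⟨z, hz⟩ := (IsIntegrallyClosed.isIntegral_iff (R := V) (K := F)).mp h1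
  rw [← hz]
  exact z.2

section Extend

variable {K L FK FL : Type*} [Field K] [Field L] [Field FK] [Field FL]
  [Algebra K FK] [Algebra L FL] [Algebra K L]
  (ι : FK →+* FL) (hι : ∀ c : K, ι (algebraMap K FK c) = algebraMap L FL (algebraMap K L c))

include hι in
/-- **(EXT), abstract form.**  Every place of `FK / K` extends to a place of `FL / L`. -/
theorem exists_place_above_abstract [Algebra.IsAlgebraic K L] [IsAlgClosed L] [CharZero L]
    {x : FL} (hx : FF.IsGen L x) (w : Place K FK) :
    ∃ (v : Place L FL) (e : ℕ), 0 < e ∧ ∀ f : FK, v.ord (ι f) = (e : ℤ) * w.ord f := by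
  classical
  obtain ⟨V, hmem, hnu⟩ := exists_dominating ι w.toValuationSubring
  -- constants
  have hK : ∀ k : K, ((algebraMap L FL).comp (algebraMap K L)) k ∈ V := fun k => by
    rw [RingHom.comp_apply, ← hι]
    exact hmem _ (w.algebraMap_mem' k)
  have hL : ∀ c : L, algebraMap L FL c ∈ V := by
    intro c
    have hc : IsIntegral K c := (Algebra.IsAlgebraic.isAlgebraic c).isIntegral
    obtain ⟨p, hp, hpc⟩ := hc
    refine mem_of_monic_root V _ hK ⟨p, hp, ?_⟩
    rw [← Polynomial.hom_eval₂, hpc, map_zero]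
  -- the image of a uniformiser
  obtain ⟨π, hπ⟩ := FF.ffp_exists_irreducible w
  have hπ0 : (π : FK) ≠ 0 := by
    simpa [ne_eq, ZeroMemClass.coe_eq_zero] using hπ.ne_zero
  have ht0 : ι (π : FK) ≠ 0 := (map_ne_zero ι).mpr hπ0
  have htV : ι (π : FK) ∈ V := hmem _ π.2
  have hπinv : (π : FK)⁻¹ ∉ w.toValuationSubring := by
    intro h
    apply hπ.not_isUnit
    refine isUnit_iff_exists_inv.mpr ⟨⟨_, h⟩, ?_⟩
    apply Subtype.ext
    show (π : FK) * (π : FK)⁻¹ = 1
    exact mul_inv_cancel₀ hπ0
  have htinv : (ι (π : FK))⁻¹ ∉ V := hnu _ π.2 hπinv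
  have hVtop : V ≠ ⊤ := fun h => htinv (h ▸ ValuationSubring.mem_top _)
  -- `t` is transcendental over `L`
  have httr : Transcendental L (ι (π : FK)) := by
    intro halg
    obtain ⟨c, hc⟩ := FF.eq_algebraMap_of_isAlgebraic halg
    apply htinv
    rw [hc, ← map_inv₀]
    exact hL _
  have hgen : FF.IsGen L (ι (π : FK)) := hx.of_transcendental httr
  -- the Dedekind domain
  have hDed := FF.isDedekindDomain_intRing hgen
  have hFrac := FF.isFractionRing_intRing hgen
  have hpoly : ∀ a : FF.polyRing L (ι (π : FK)),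
      algebraMap (FF.polyRing L (ι (π : FK))) FL a ∈ V := by
    intro a
    let VS : Subalgebra L FL := { V.toSubring with algebraMap_mem' := hL }
    have h1 : Algebra.adjoin L {ι (π : FK)} ≤ VS :=
      Algebra.adjoin_le (Set.singleton_subset_iff.mpr (show ι (π : FK) ∈ VS from htV))
    exact h1 a.2
  have hB : ∀ b : FF.intRing L (ι (π : FK)),
      algebraMap (FF.intRing L (ι (π : FK))) FL b ∈ V := by
    intro b
    exact mem_of_monic_root V _ hpoly b.2
  have hPID := isPrincipalIdealRing_of_dedekind_le V hB hVtop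
  let v : Place L FL := ⟨V, hL, hVtop, hPID⟩
  have hvV : v.toValuationSubring = V := rfl
  -- order of `t`
  have hordt : 0 < v.ord (ι (π : FK)) := by
    have h1 : 0 ≤ v.ord (ι (π : FK)) := FF.ffp_ord_nonneg_of_mem v htV
    rcases h1.lt_or_eq with h2 | h2
    · exact h2
    · exfalso
      apply htinv
      have h3 : 0 ≤ v.ord (ι (π : FK))⁻¹ := by rw [v.ord_inv, ← h2]; simp
      exact FF.ffp_mem_of_ord_nonneg v h3
  refine ⟨v, (v.ord (ι (π : FK))).toNat, by omega, ?_⟩
  intro f
  rcases eq_or_ne f 0 with rfl | hf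
  · simp
  obtain ⟨u, hu⟩ := w.exists_unit_mul_zpow hf hπ
  have hu0 : ((u : w.toValuationSubring) : FK) ≠ 0 := by
    simp [ne_eq, ZeroMemClass.coe_eq_zero]
  -- `ι u` is a unit of `V`
  have hu1 : ι ((u : w.toValuationSubring) : FK) ∈ V := hmem _ (u : w.toValuationSubring).2
  have hu2 : (ι ((u : w.toValuationSubring) : FK))⁻¹ ∈ V := by
    have h1 : (((u⁻¹ : w.toValuationSubringˣ) : w.toValuationSubring) : FK) =
        ((u : w.toValuationSubring) : FK)⁻¹ := by
      have h2 : ((u : w.toValuationSubring) : FK) *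
          (((u⁻¹ : w.toValuationSubringˣ) : w.toValuationSubring) : FK) = 1 := by
        exact congrArg (Subtype.val : w.toValuationSubring → FK) u.mul_inv
      exact (inv_eq_of_mul_eq_one_right h2).symm
    rw [← map_inv₀, ← h1]
    exact hmem _ ((u⁻¹ : w.toValuationSubringˣ) : w.toValuationSubring).2
  have hordu : v.ord (ι ((u : w.toValuationSubring) : FK)) = 0 := by
    have h1 := FF.ffp_ord_nonneg_of_mem v hu1
    have h2 := FF.ffp_ord_nonneg_of_mem v hu2
    rw [v.ord_inv] at h2
    omega
  have hιf : ι f = ι ((u : w.toValuationSubring) : FK) * (ι (π : FK)) ^ (w.ord f) := by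
    conv_lhs => rw [hu]
    rw [map_mul, map_zpow₀]
  rw [hιf, v.ord_mul ((map_ne_zero ι).mpr hu0) (zpow_ne_zero _ ht0), hordu, zero_add, v.ord_zpow,
    Int.toNat_of_nonneg hordt.le]
  ring

end Extend

section Concrete

variable (M : ℕ) (K : IntermediateField ℚ Qbar)

/-- Coefficientwise base change `K·F_M → ℚ̄·F_M`. -/
def baseChangeHom : FK M K →+* Fbar M :=
  RingHom.codRestrict ((coeffMap (algebraMap K Qbar)).comp (FK M K).val.toRingHom) (Fbar M)
    (fun f => CoeffDescent1.coeffMap_mem_laurentBaseChange_of_algHom (algebraMap K Qbar)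
      (modularFunctionFieldFull M) f.2)

@[simp] theorem coe_baseChangeHom (f : FK M K) :
    ((baseChangeHom M K f : Fbar M) : LaurentSeries Qbar) =
      coeffMap (algebraMap K Qbar) (f : LaurentSeries K) := rfl

theorem baseChangeHom_algebraMap (c : K) :
    baseChangeHom M K (algebraMap K (FK M K) c) = algebraMap Qbar (Fbar M) (c : Qbar) := by
  apply Subtype.ext
  rw [coe_baseChangeHom]
  exact CoeffDescent1.coeffMap_algebraMap_of_ringHom (algebraMap K Qbar) c

theorem baseChangeHom_injective : Function.Injective (baseChangeHom M K) :=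
  (baseChangeHom M K).injective

theorem isAlgebraic_Qbar_over : Algebra.IsAlgebraic K Qbar := by
  have h0 : Algebra.IsAlgebraic ℚ Qbar := AlgebraicClosure.isAlgebraic ℚ
  exact Algebra.IsAlgebraic.tower_top (K := ℚ) K

/-- **(EXT).**  Every place of `K·F_M / K` extends to a place of `ℚ̄·F_M / ℚ̄`. -/
theorem exists_place_above [NeZero M] (w : Place K (FK M K)) :
    ∃ (v : Place Qbar (Fbar M)) (e : ℕ), 0 < e ∧
      ∀ f : FK M K, v.ord (baseChangeHom M K f) = (e : ℤ) * w.ord f := by
  have h1 := isAlgebraic_Qbar_over K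
  exact exists_place_above_abstract (baseChangeHom M K) (baseChangeHom_algebraMap M K)
    (Fermat.Agent.RED.TOP.FbarFacts20.isGen_j M) w

/-- **(EXT)**, membership form. -/
theorem exists_place_above_mem [NeZero M] (w : Place K (FK M K)) :
    ∃ (v : Place Qbar (Fbar M)) (e : ℕ), 0 < e ∧
      (∀ f : FK M K, v.ord (baseChangeHom M K f) = (e : ℤ) * w.ord f) ∧
      ∀ f : FK M K, baseChangeHom M K f ∈ v.toValuationSubring ↔ f ∈ w.toValuationSubring := by
  obtain ⟨v, e, he, hord⟩ := exists_place_above M K w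
  refine ⟨v, e, he, hord, fun f => ?_⟩
  rw [FF.ffp_mem_iff_ord_nonneg, FF.ffp_mem_iff_ord_nonneg, hord]
  have he' : (0 : ℤ) < (e : ℤ) := by exact_mod_cast he
  constructor
  · intro h
    by_contra hneg
    rw [not_le] at hneg
    have := mul_neg_of_pos_of_neg he' hneg
    omega
  · intro h
    exact mul_nonneg he'.le h

end Concrete

end

end Fermat.Agent.RED.DESC.PlaceExtend27
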