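/-
Program H (S18), chapter RED/DESC (helper14): parts of the descent step `DescStepGe`
(hedge / split of `DescMain27`).

* `exists_coeffMap_eq` : lifting a Laurent series along an injective coefficient map;
* `exists_unif_descent` : uniformisers at finitely many `ℚ̄`-places descend to a number field, and
  stay available over every larger field;
* `ramification_eq_one` : hence `e(v|w) = 1` for the places `v` of that finite set;
* `exists_root_bar` : the conclusion over `ℚ̄` from the conclusion over `K` (root extraction).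
(The hypothesis transfer is `HypTransfer12`.)
-/
import Mathlib
import Fermat.Agent.RED.DESC.PlaceExtend27
import Fermat.Agent.RED.DESC.NumberFieldDVR27
import Fermat.Agent.RED.InterfaceGe4

set_option autoImplicit false

open AlgebraicCurve ModularCurve HahnSeries

namespace Fermat.Agent.RED.DESC.UnifDescent14

open Fermat.Agent.X0 Fermat.Agent.RED.Interface4 Fermat.Agent.RED.DESC.PlaceExtend27
open Fermat.Agent.RED.DESC

noncomputable section

/-! ### lifting along an injective coefficient map -/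

theorem exists_coeffMap_eq {R S : Type*} [CommRing R] [CommRing S] (φ : R →+* S)
    (hφ : Function.Injective φ) (x : LaurentSeries S) (h : ∀ n, x.coeff n ∈ Set.range φ) :
    ∃ y : LaurentSeries R, coeffMap φ y = x := by
  classical
  choose c hc using h
  have hsupp : Function.support c ⊆ x.support := by
    intro n hn
    rw [Function.mem_support] at hn
    rw [HahnSeries.mem_support]
    intro h0
    apply hn
    apply hφ
    rw [hc n, h0, map_zero]
  refine ⟨⟨c, x.isPWO_support.mono hsupp⟩, ?_⟩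
  ext n
  show (HahnSeries.map _ φ).coeff n = x.coeff n
  rw [HahnSeries.map_coeff]
  exact hc n

/-! ### uniformiser descent -/

variable (M : ℕ)

/-- A fixed element of `Fbar M` descends to a number field above `K₀`, and to all larger fields. -/
theorem exists_descent_ge (K₀ : IntermediateField ℚ Qbar) [FiniteDimensional ℚ K₀]
    (x : Fbar M) :
    ∃ K₁ : IntermediateField ℚ Qbar, FiniteDimensional ℚ K₁ ∧ K₀ ≤ K₁ ∧
      ∀ K : IntermediateField ℚ Qbar, K₁ ≤ K → ∃ x' : FK M K, baseChangeHom M K x' = x := by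
  have := NumberFieldDVR27.isAlgebraic_Qbar
  obtain ⟨K₁, hK₀, hfin, x', hx', hxx⟩ :=
    CoeffDescent1.exists_finite_descent (L := Qbar) (F₀ := modularFunctionFieldFull M) K₀ x.2
  refine ⟨K₁, hfin, hK₀, fun K hK => ?_⟩
  obtain ⟨x'', hx'', h''⟩ := CoeffDescent1.exists_lift_of_le hK hx'
  refine ⟨⟨x'', hx''⟩, Subtype.ext ?_⟩
  rw [coe_baseChangeHom]
  exact h''.trans hxx

/-- **Uniformiser descent.** -/
theorem exists_unif_descent (K₀ : IntermediateField ℚ Qbar) [FiniteDimensional ℚ K₀]
    (S : Finset (Place Qbar (Fbar M))) :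
    ∃ K₁ : IntermediateField ℚ Qbar, FiniteDimensional ℚ K₁ ∧ K₀ ≤ K₁ ∧
      ∀ K : IntermediateField ℚ Qbar, K₁ ≤ K → ∀ v ∈ S,
        ∃ τ' : FK M K, v.ord (baseChangeHom M K τ') = 1 := by
  classical
  induction S using Finset.induction_on with
  | empty => exact ⟨K₀, inferInstance, le_rfl, fun K _ v hv => absurd hv (Finset.notMem_empty v)⟩
  | insert v S _ ih =>
    obtain ⟨K₁, hfin₁, hK₁, H₁⟩ := ih
    have := hfin₁
    obtain ⟨π, hπ⟩ := IsDiscreteValuationRing.exists_irreducible v.toValuationSubring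
    obtain ⟨K₂, hfin₂, hK₂, H₂⟩ := exists_descent_ge M K₁ (π : Fbar M)
    refine ⟨K₂, hfin₂, hK₁.trans hK₂, fun K hK u hu => ?_⟩
    rcases Finset.mem_insert.mp hu with rfl | hu
    · obtain ⟨τ', hτ'⟩ := H₂ K hK
      exact ⟨τ', by rw [hτ', Place.ord_coe_irreducible u hπ]⟩
    · exact H₁ K (hK₂.trans hK) u hu

/-- If a uniformiser at `v` comes from `K·F_M`, then `e(v|w) = 1`. -/
theorem ramification_eq_one {K : IntermediateField ℚ Qbar} (w : Place K (FK M K))
    (v : Place Qbar (Fbar M)) (e : ℕ)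
    (hord : ∀ f : FK M K, v.ord (baseChangeHom M K f) = (e : ℤ) * w.ord f)
    (τ' : FK M K) (hτ' : v.ord (baseChangeHom M K τ') = 1) : e = 1 := by
  have h := hord τ'
  rw [hτ'] at h
  have h1 : (e : ℤ) ∣ 1 := ⟨_, h⟩
  have h2 : (e : ℤ) = 1 := by
    rcases Int.isUnit_iff.mp (isUnit_of_dvd_one h1) with h3 | h3
    · exact h3
    · omega
  exact_mod_cast h2

/-- **Uniformiser descent**, in the shape consumed by the assembly (all number fields above
`K₁`). -/
theorem unif_descent (S : Finset (Place Qbar (Fbar M))) :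
    ∃ K₁ : IntermediateField ℚ Qbar, FiniteDimensional ℚ K₁ ∧
      ∀ K : IntermediateField ℚ Qbar, FiniteDimensional ℚ K → K₁ ≤ K → ∀ v ∈ S,
        ∃ τ : FK M K, v.ord (baseChangeHom M K τ) = 1 := by
  have : FiniteDimensional ℚ (⊥ : IntermediateField ℚ Qbar) := inferInstance
  obtain ⟨K₁, hfin, -, H⟩ := exists_unif_descent M ⊥ S
  exact ⟨K₁, hfin, fun K _ hK v hv => H K hK v hv⟩

/-! ### root extraction -/

/-- **(c)**: from `s ^ m * q = c • p` over `K` (`c ≠ 0`) to `s' ^ m * q̄ = p̄` over `ℚ̄`. -/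
theorem exists_root_bar (K : IntermediateField ℚ Qbar) (m : ℕ) (hm : m ≠ 0) (p q : FK M K)
    (c : K) (hc : c ≠ 0) (s : FK M K) (h : s ^ m * q = c • p) :
    ∃ s' : Fbar M, s' ^ m * baseChangeHom M K q = baseChangeHom M K p := by
  obtain ⟨d, hd⟩ := IsAlgClosed.exists_pow_nat_eq ((c : K) : Qbar) (Nat.pos_of_ne_zero hm)
  have hcQ : ((c : K) : Qbar) ≠ 0 := by
    intro h0
    exact hc (Subtype.ext h0)
  have hd0 : d ≠ 0 := by
    rintro rfl
    rw [zero_pow hm] at hd
    exact hcQ hd.symm
  have hdF : algebraMap Qbar (Fbar M) d ≠ 0 := (map_ne_zero _).mpr hd0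
  refine ⟨(algebraMap Qbar (Fbar M) d)⁻¹ * baseChangeHom M K s, ?_⟩
  have h1 := congrArg (baseChangeHom M K) h
  rw [map_mul, map_pow, Algebra.smul_def, map_mul, baseChangeHom_algebraMap, ← hd, map_pow] at h1
  rw [mul_pow, inv_pow, mul_assoc, h1, ← mul_assoc, inv_mul_cancel₀ (pow_ne_zero m hdF), one_mul]

end

end Fermat.Agent.RED.DESC.UnifDescent14
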