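/-
Program H (S18), chapter DESC (helper27): **`DescStepGe`** — descent from `ℚ̄` to number fields.

`(CL)` over every number field `K ⊇ K₀` (`InterfaceGe4`/`Interface4.CLNum`) implies `(CL)` over `ℚ̄`
(`Interface4.CLBar`).  Proof: the data `P, Q ∈ A((q))` and a uniformiser at each of the finitely many
places where `ord P ≠ ord Q` descend to a common number field `K ⊇ K₀` (`exists_common_descent`, from
helper1's `CoeffDescent1`); the coefficients lie in `A ∩ K` (`exists_lift_AK`), the residue conditions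
transfer along the injection of residue fields (`NumberFieldDVR27`); every place `w` of `K·F_M` has a
place `v` of `ℚ̄·F_M` above it with `ord_v = e · ord_w` (`PlaceExtend27`), and `e = 1` whenever
`ord_v P ≠ ord_v Q` because a uniformiser of `v` lies in `K·F_M`; so the divisibility hypothesis
descends.  The conclusion `s^m Q' = c P'` over `K` lifts after extracting an `m`-th root of `c` in `ℚ̄`.
-/
import Fermat.Agent.RED.InterfaceGe4
import Fermat.Agent.RED.DESC.NumberFieldDVR27
import Fermat.Agent.RED.DESC.PlaceExtend27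

set_option autoImplicit false
set_option linter.unusedSectionVars false

namespace Fermat.Agent.RED.DESC.DescMain27

open AlgebraicCurve ModularCurve HahnSeries
open Fermat.Agent.X0 Fermat.Agent.RED.Interface4 Fermat.Agent.RED.InterfaceGe4
open Fermat.Agent.RED.DESC Fermat.Agent.RED.TOP

noncomputable section

/-- (C1) A finite family of elements of `ℚ̄·F_M` descends to a common number field. -/
theorem exists_common_descent (M : ℕ) (K₀ : IntermediateField ℚ Qbar) [FiniteDimensional ℚ K₀]
    (T : Finset (LaurentSeries Qbar)) (hT : ∀ x ∈ T, x ∈ Fbar M) :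
    ∃ K : IntermediateField ℚ Qbar, K₀ ≤ K ∧ FiniteDimensional ℚ K ∧
      ∀ x ∈ T, ∃ x' : LaurentSeries K, x' ∈ FK M K ∧ coeffMap (algebraMap K Qbar) x' = x := by
  classical
  have h0 : Algebra.IsAlgebraic ℚ Qbar := NumberFieldDVR27.isAlgebraic_Qbar
  induction T using Finset.induction_on with
  | empty => exact ⟨K₀, le_rfl, inferInstance, fun x hx => absurd hx (Finset.notMem_empty x)⟩
  | insert a T _ ih =>
    obtain ⟨K, hK₀, hfin, hK⟩ := ih (fun x hx => hT x (Finset.mem_insert_of_mem hx))
    have := hfin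
    obtain ⟨K', hKK', hfin', a', ha', haa'⟩ :=
      CoeffDescent1.exists_finite_descent (F₀ := modularFunctionFieldFull M) K
        (hT a (Finset.mem_insert_self a T))
    refine ⟨K', hK₀.trans hKK', hfin', ?_⟩
    intro x hx
    rcases Finset.mem_insert.mp hx with rfl | hx
    · exact ⟨a', ha', haa'⟩
    · obtain ⟨x', hx', hxx'⟩ := hK x hx
      obtain ⟨x'', hx'', h''⟩ := CoeffDescent1.exists_lift_of_le hKK' hx'
      exact ⟨x'', hx'', h''.trans hxx'⟩

variable (A : ValuationSubring Qbar) (K : IntermediateField ℚ Qbar)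

/-- A Laurent series over `K` with coefficients in `A ∩ K`, as a Laurent series over `A ∩ K`. -/
def liftAK (x : LaurentSeries K) (h : ∀ n, x.coeff n ∈ AK A K) : LaurentSeries (AK A K) where
  coeff n := ⟨x.coeff n, h n⟩
  isPWO_support' := by
    refine x.isPWO_support.mono ?_
    intro n hn
    simp only [Function.mem_support, ne_eq] at hn ⊢
    intro h0
    apply hn
    exact Subtype.ext h0

@[simp] theorem coeff_liftAK (x : LaurentSeries K) (h : ∀ n, x.coeff n ∈ AK A K) (n : ℤ) :
    (((liftAK A K x h).coeff n : AK A K) : K) = x.coeff n := rfl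

theorem coeffMap_subtype_liftAK (x : LaurentSeries K) (h : ∀ n, x.coeff n ∈ AK A K) :
    coeffMap (AK A K).subtype (liftAK A K x h) = x := by
  ext n
  rfl

/-- (C2) integral lift. -/
theorem exists_lift_AK (P : LaurentSeries A) (x : LaurentSeries K)
    (h : coeffMap (algebraMap K Qbar) x = coeffMap A.subtype P) :
    ∃ P' : LaurentSeries (AK A K), coeffMap (AK A K).subtype P' = x ∧
      coeffMap (NumberFieldDVR27.incl A K) P' = P := by
  have hmem : ∀ n, x.coeff n ∈ AK A K := by
    intro n
    rw [NumberFieldDVR27.mem_AK_iff]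
    have h1 := congrArg (fun y : LaurentSeries Qbar => y.coeff n) h
    simp only [coeffMap_coeff] at h1
    have h2 : ((x.coeff n : K) : Qbar) = ((P.coeff n : A) : Qbar) := h1
    rw [h2]
    exact (P.coeff n).2
  refine ⟨liftAK A K x hmem, coeffMap_subtype_liftAK A K x hmem, ?_⟩
  ext n
  have h1 := congrArg (fun y : LaurentSeries Qbar => y.coeff n) h
  simp only [coeffMap_coeff] at h1
  exact h1

/-- (C3) residues, equality. -/
theorem residue_eq_of_incl {P' Q' : LaurentSeries (AK A K)}
    (h : coeffMap (IsLocalRing.residue A) (coeffMap (NumberFieldDVR27.incl A K) P') =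
      coeffMap (IsLocalRing.residue A) (coeffMap (NumberFieldDVR27.incl A K) Q')) :
    coeffMap (IsLocalRing.residue (AK A K)) P' = coeffMap (IsLocalRing.residue (AK A K)) Q' := by
  ext n
  simp only [coeffMap_coeff]
  rw [NumberFieldDVR27.residue_eq_iff]
  have h1 := congrArg (fun y : LaurentSeries (IsLocalRing.ResidueField A) => y.coeff n) h
  simpa only [coeffMap_coeff] using h1

/-- (C3) residues, nonvanishing. -/
theorem residue_ne_zero_of_incl {P' : LaurentSeries (AK A K)}
    (h : coeffMap (IsLocalRing.residue A) (coeffMap (NumberFieldDVR27.incl A K) P') ≠ 0) :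
    coeffMap (IsLocalRing.residue (AK A K)) P' ≠ 0 := by
  intro h0
  apply h
  have h1 : coeffMap (IsLocalRing.residue (AK A K)) P' =
      coeffMap (IsLocalRing.residue (AK A K)) 0 := by rw [h0, map_zero]
  have h2 : coeffMap (IsLocalRing.residue A) (coeffMap (NumberFieldDVR27.incl A K) P') =
      coeffMap (IsLocalRing.residue A) (coeffMap (NumberFieldDVR27.incl A K) 0) := by
    ext n
    have h3 := congrArg (fun y : LaurentSeries (IsLocalRing.ResidueField (AK A K)) => y.coeff n) h1
    simp only [coeffMap_coeff] at h3 ⊢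
    exact (NumberFieldDVR27.residue_eq_iff A K _ _).mp h3
  rw [h2, map_zero, map_zero]

/-- **Chapter DESC.**  `(CL)` over all number fields `K ⊇ K₀` implies `(CL)` over `ℚ̄`. -/
theorem descStepGe (ℓ M : ℕ) [NeZero M] (A : ValuationSubring Qbar) : DescStepGe ℓ M A := by
  classical
  intro K₀ hK₀ hnum P Q hP hQ hres hne m hm hord
  have := hK₀
  have hm0 : 0 < m := Nat.pos_of_ne_zero (fun h => hm (h ▸ dvd_zero ℓ))
  have hP0 : P ≠ 0 := by
    rintro rfl
    exact hne (map_zero _)
  have hQ0 : Q ≠ 0 := by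
    rintro rfl
    exact hne (by rw [hres, map_zero])
  have hsubinj : Function.Injective (coeffMap A.subtype) :=
    CoeffDescent1.coeffMap_injective_of_injective _ Subtype.val_injective
  have hfP0 : (⟨coeffMap A.subtype P, hP⟩ : Fbar M) ≠ 0 := by
    intro h
    apply hP0
    apply hsubinj
    have h1 := congrArg Subtype.val h
    rw [map_zero]
    exact h1
  have hfQ0 : (⟨coeffMap A.subtype Q, hQ⟩ : Fbar M) ≠ 0 := by
    intro h
    apply hQ0
    apply hsubinj
    have h1 := congrArg Subtype.val h
    rw [map_zero]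
    exact h1
  -- the finite set of places where the orders differ
  obtain ⟨DP, hDP, -⟩ := FbarFacts20.exists_divisor_bar M hfP0
  obtain ⟨DQ, hDQ, -⟩ := FbarFacts20.exists_divisor_bar M hfQ0
  let S : Finset (Place Qbar (Fbar M)) := DP.support ∪ DQ.support
  have hS : ∀ v, v ∉ S → v.ord (⟨coeffMap A.subtype P, hP⟩ : Fbar M) =
      v.ord (⟨coeffMap A.subtype Q, hQ⟩ : Fbar M) := by
    intro v hv
    simp only [S, Finset.mem_union, Finsupp.mem_support_iff, not_or, not_not] at hv
    rw [← hDP v, ← hDQ v, hv.1, hv.2]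
  -- uniformisers
  let τ : Place Qbar (Fbar M) → Fbar M := fun v =>
    (((FF.ffp_exists_irreducible v).choose : v.toValuationSubring) : Fbar M)
  have hτ : ∀ v : Place Qbar (Fbar M), v.ord (τ v) = 1 := by
    intro v
    exact v.ord_coe_irreducible (FF.ffp_exists_irreducible v).choose_spec
  let T : Finset (LaurentSeries Qbar) :=
    insert (coeffMap A.subtype P) (insert (coeffMap A.subtype Q)
      (S.image (fun v => ((τ v : Fbar M) : LaurentSeries Qbar))))
  have hT : ∀ x ∈ T, x ∈ Fbar M := by
    intro x hx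
    simp only [T, Finset.mem_insert, Finset.mem_image] at hx
    rcases hx with rfl | rfl | ⟨v, -, rfl⟩
    · exact hP
    · exact hQ
    · exact (τ v).2
  obtain ⟨K, hK₀K, hfin, hK⟩ := exists_common_descent M K₀ T hT
  have := hfin
  obtain ⟨xP, hxP, hxP'⟩ := hK (coeffMap A.subtype P) (by simp [T])
  obtain ⟨xQ, hxQ, hxQ'⟩ := hK (coeffMap A.subtype Q) (by simp [T])
  obtain ⟨P', hP'1, hP'2⟩ := exists_lift_AK A K P xP hxP'
  obtain ⟨Q', hQ'1, hQ'2⟩ := exists_lift_AK A K Q xQ hxQ'
  have hP'mem : coeffMap (AK A K).subtype P' ∈ FK M K := hP'1 ▸ hxP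
  have hQ'mem : coeffMap (AK A K).subtype Q' ∈ FK M K := hQ'1 ▸ hxQ
  have hresK : coeffMap (IsLocalRing.residue (AK A K)) P' =
      coeffMap (IsLocalRing.residue (AK A K)) Q' := by
    apply residue_eq_of_incl
    rw [hP'2, hQ'2]
    exact hres
  have hneK : coeffMap (IsLocalRing.residue (AK A K)) P' ≠ 0 := by
    apply residue_ne_zero_of_incl
    rw [hP'2]
    exact hne
  -- base change of the two functions
  have hbP : PlaceExtend27.baseChangeHom M K ⟨_, hP'mem⟩ = (⟨coeffMap A.subtype P, hP⟩ : Fbar M) := by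
    apply Subtype.ext
    rw [PlaceExtend27.coe_baseChangeHom]
    show coeffMap (algebraMap K Qbar) (coeffMap (AK A K).subtype P') = coeffMap A.subtype P
    rw [hP'1]
    exact hxP'
  have hbQ : PlaceExtend27.baseChangeHom M K ⟨_, hQ'mem⟩ = (⟨coeffMap A.subtype Q, hQ⟩ : Fbar M) := by
    apply Subtype.ext
    rw [PlaceExtend27.coe_baseChangeHom]
    show coeffMap (algebraMap K Qbar) (coeffMap (AK A K).subtype Q') = coeffMap A.subtype Q
    rw [hQ'1]
    exact hxQ'
  -- the hypothesis on the places of `K·F_M`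
  have hplaces : ∀ w : Place K (FK M K),
      (m : ℤ) ∣ w.ord (⟨coeffMap (AK A K).subtype P', hP'mem⟩ : FK M K) -
        w.ord (⟨coeffMap (AK A K).subtype Q', hQ'mem⟩ : FK M K) := by
    intro w
    obtain ⟨v, e, he, hve⟩ := PlaceExtend27.exists_place_above M K w
    have h1 := hve ⟨_, hP'mem⟩
    have h2 := hve ⟨_, hQ'mem⟩
    rw [hbP] at h1
    rw [hbQ] at h2
    by_cases hv : v ∈ S
    · obtain ⟨xτ, hxτ, hxτ'⟩ := hK ((τ v : Fbar M) : LaurentSeries Qbar) (by
        simp only [T, Finset.mem_insert, Finset.mem_image]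
        exact Or.inr (Or.inr ⟨v, hv, rfl⟩))
      have h3 := hve ⟨xτ, hxτ⟩
      have h4 : PlaceExtend27.baseChangeHom M K ⟨xτ, hxτ⟩ = τ v := Subtype.ext hxτ'
      rw [h4, hτ v] at h3
      have he1 : (e : ℤ) = 1 :=
        Int.eq_one_of_mul_eq_one_right (by positivity) h3.symm
      have h5 := hord v
      rw [h1, h2, he1, one_mul, one_mul] at h5
      exact h5
    · have h3 := hS v hv
      rw [h1, h2] at h3
      have he' : (e : ℤ) ≠ 0 := by exact_mod_cast he.ne'
      have h4 := mul_left_cancel₀ he' h3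
      rw [h4, sub_self]
      exact dvd_zero _
  obtain ⟨c, s, hc, hs⟩ := hnum K hfin hK₀K P' Q' hP'mem hQ'mem hresK hneK m hm hplaces
  -- an `m`-th root of the constant
  obtain ⟨d, hd⟩ := IsAlgClosed.exists_pow_nat_eq ((c : K) : Qbar) hm0
  have hcQ : ((c : K) : Qbar) ≠ 0 := by
    intro h
    apply hc
    exact Subtype.ext h
  have hd0 : d ≠ 0 := by
    rintro rfl
    rw [zero_pow hm0.ne'] at hd
    exact hcQ hd.symm
  refine ⟨(algebraMap Qbar (Fbar M) d)⁻¹ * PlaceExtend27.baseChangeHom M K s, ?_⟩
  have h5 := congrArg (PlaceExtend27.baseChangeHom M K) hs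
  rw [map_mul, map_pow, hbQ, Algebra.smul_def, map_mul, PlaceExtend27.baseChangeHom_algebraMap,
    hbP] at h5
  rw [mul_pow, inv_pow, ← map_pow, hd, mul_assoc, h5, ← mul_assoc, inv_mul_cancel₀, one_mul]
  exact (map_ne_zero _).mpr hcQ

end

end Fermat.Agent.RED.DESC.DescMain27
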