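/-
RED/DESC (b) (helper12, hedge for DescMain27): transfer of the divisibility hypothesis of `(CL)` from
the places of `ℚ̄·F_M / ℚ̄` to the places of `K·F_M / K`.

Given `p, q ∈ K·F_M` with `m ∣ ord_v(p̄) - ord_v(q̄)` at every place `v` of `ℚ̄·F_M`, and such that
at every place `v` in the support of `div(p̄/q̄)` the field `K·F_M` contains an element which is a
uniformiser at `v` (uniformiser descent, leaf (a)): then `m ∣ ord_w(p) - ord_w(q)` at every place
`w` of `K·F_M`.  Proof: `(EXT)` (`PlaceExtend27.exists_place_above`): `ord_v ∘ bc = e · ord_w`; a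
uniformiser at `v` coming from `K·F_M` forces `e = 1`; outside the support `e · (…) = 0`.
-/
import Fermat.Agent.RED.DESC.PlaceExtend27

set_option autoImplicit false

open HahnSeries AlgebraicCurve ModularCurve

namespace Fermat.Agent.RED.DESC.HypTransfer12

open Fermat.Agent.RED.Interface4 Fermat.Agent.RED.DESC.PlaceExtend27

variable (M : ℕ) [NeZero M] (K : IntermediateField ℚ Qbar)

omit [NeZero M] in
/-- if `K·F_M` contains a uniformiser at `v`, the ramification index of `v` over `w` is one. -/
theorem ord_eq_of_unif {w : Place K (FK M K)} {v : Place Qbar (Fbar M)} {e : ℕ}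
    (hord : ∀ f : FK M K, v.ord (baseChangeHom M K f) = (e : ℤ) * w.ord f)
    (τ : FK M K) (hτ : v.ord (baseChangeHom M K τ) = 1) (f : FK M K) :
    v.ord (baseChangeHom M K f) = w.ord f := by
  have h1 := hord τ
  rw [hτ] at h1
  have he : (e : ℤ) = 1 := by
    have hdvd : (e : ℤ) ∣ 1 := ⟨w.ord τ, h1⟩
    exact Int.eq_one_of_dvd_one (Int.natCast_nonneg e) hdvd
  rw [hord f, he, one_mul]

/-- **(b)** hypothesis transfer, difference form (the literal hypothesis of `CLNum`). -/
theorem dvd_ord_sub_of_bar (p q : FK M K) (m : ℕ)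
    (hbar : ∀ v : Place Qbar (Fbar M),
      (m : ℤ) ∣ v.ord (baseChangeHom M K p) - v.ord (baseChangeHom M K q))
    (hunif : ∀ v : Place Qbar (Fbar M),
      v.ord (baseChangeHom M K p) - v.ord (baseChangeHom M K q) ≠ 0 →
        ∃ τ : FK M K, v.ord (baseChangeHom M K τ) = 1)
    (w : Place K (FK M K)) : (m : ℤ) ∣ w.ord p - w.ord q := by
  obtain ⟨v, e, he, hord⟩ := exists_place_above M K w
  by_cases h0 : v.ord (baseChangeHom M K p) - v.ord (baseChangeHom M K q) = 0
  · rw [hord p, hord q, ← mul_sub] at h0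
    have he0 : (e : ℤ) ≠ 0 := by exact_mod_cast he.ne'
    rcases mul_eq_zero.mp h0 with h | h
    · exact absurd h he0
    · rw [h]
      exact dvd_zero _
  · obtain ⟨τ, hτ⟩ := hunif v h0
    have h := hbar v
    rwa [ord_eq_of_unif M K hord τ hτ p, ord_eq_of_unif M K hord τ hτ q] at h

/-- **(b)** hypothesis transfer, single-element form. -/
theorem dvd_ord_of_bar (u : FK M K) (m : ℕ)
    (hbar : ∀ v : Place Qbar (Fbar M), (m : ℤ) ∣ v.ord (baseChangeHom M K u))
    (hunif : ∀ v : Place Qbar (Fbar M), v.ord (baseChangeHom M K u) ≠ 0 →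
      ∃ τ : FK M K, v.ord (baseChangeHom M K τ) = 1)
    (w : Place K (FK M K)) : (m : ℤ) ∣ w.ord u := by
  have h := dvd_ord_sub_of_bar M K u 1 m
    (fun v => by rw [map_one, Place.ord_one, sub_zero]; exact hbar v)
    (fun v hv => hunif v (by rwa [map_one, Place.ord_one, sub_zero] at hv)) w
  rwa [Place.ord_one, sub_zero] at h

end Fermat.Agent.RED.DESC.HypTransfer12
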