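/-
RED/DESC assembly (helper12, hedge for DescMain27): chapter DESC of Program H from the uniformiser
descent (a) as a hypothesis.

`descStepGe_of : UnifDescent M → DescStepGe ℓ M A`, where
`UnifDescent M` : for every finite set `S` of places of `ℚ̄·F_M` there is a number field `K₁` such
that for every number field `K ⊇ K₁` and `v ∈ S`, `K·F_M` contains a uniformiser at `v`.

Steps: `P̄, Q̄ ∈ ℚ̄·F_M` descend to `p, q ∈ K·F_M` for a number field `K ⊇ K₀`
(`CoeffDescent1.exists_finite_descent`); enlarge `K` by (a) for `S = supp div P̄ ∪ supp div Q̄`; the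
coefficients of `p, q` lie in `A ∩ K`, so `p, q` come from `(A ∩ K)((q))`; the reductions agree since
`κ(A ∩ K) → κ(A)` is injective; the place hypothesis transfers (`HypTransfer12`); `(CL)` over `K`
gives `s^m q = c p`; extract an `m`-th root of `c` in `ℚ̄`.
-/
import Fermat.Agent.RED.DESC.HypTransfer12
import Fermat.Agent.RED.DESC.NumberFieldDVR27
import Fermat.Agent.RED.InterfaceGe4

set_option autoImplicit false

open HahnSeries AlgebraicCurve ModularCurve

namespace Fermat.Agent.RED.DESC.DescMain12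

open Fermat.Agent.RED.Interface4 Fermat.Agent.RED.InterfaceGe4
open Fermat.Agent.RED.DESC.PlaceExtend27 Fermat.Agent.RED.DESC.CoeffDescent1
open Fermat.Agent.RED.DESC.NumberFieldDVR27 Fermat.Agent.RED.DESC.HypTransfer12

/-- **(a) uniformiser descent**, as a `Prop`. -/
def UnifDescent (M : ℕ) : Prop :=
  ∀ S : Finset (Place Qbar (Fbar M)), ∃ K₁ : IntermediateField ℚ Qbar, FiniteDimensional ℚ K₁ ∧
    ∀ K : IntermediateField ℚ Qbar, FiniteDimensional ℚ K → K₁ ≤ K →
      ∀ v ∈ S, ∃ τ : FK M K, v.ord (baseChangeHom M K τ) = 1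

/-- a Laurent series with coefficients in a subring comes from the subring. -/
theorem exists_lift_coeff {K : Type*} [Field K] (O : ValuationSubring K) (x : LaurentSeries K)
    (h : ∀ n, x.coeff n ∈ O) : ∃ y : LaurentSeries O, coeffMap O.subtype y = x := by
  refine ⟨⟨fun n => ⟨x.coeff n, h n⟩, ?_⟩, ?_⟩
  · apply x.isPWO_support.mono
    intro n hn
    rw [Function.mem_support] at hn
    rw [HahnSeries.mem_support]
    intro h0
    exact hn (Subtype.ext h0)
  · ext n
    rfl

/-- **Chapter DESC** from uniformiser descent. -/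
theorem descStepGe_of (ℓ M : ℕ) [NeZero M] (A : ValuationSubring Qbar) (hunif : UnifDescent M) :
    DescStepGe ℓ M A := by
  classical
  intro K₀ hK₀ hnum P Q hP hQ hred hne m hℓm hord
  have := hK₀
  have : Algebra.IsAlgebraic ℚ Qbar := isAlgebraic_Qbar
  have hm : 0 < m := by
    rcases Nat.eq_zero_or_pos m with h | h
    · exact absurd (h ▸ dvd_zero ℓ) hℓm
    · exact h
  -- 1. descent of `P̄`, `Q̄`
  obtain ⟨K₁, hK₀₁, hK₁, p₁, hp₁, hp₁eq⟩ :=
    exists_finite_descent (F₀ := modularFunctionFieldFull M) K₀ hP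
  have := hK₁
  obtain ⟨K₂, hK₁₂, hK₂, q₂, hq₂, hq₂eq⟩ :=
    exists_finite_descent (F₀ := modularFunctionFieldFull M) K₁ hQ
  have := hK₂
  -- 2. supports
  have hQred : coeffMap (IsLocalRing.residue A) Q ≠ 0 := hred ▸ hne
  have hPb0 : (⟨coeffMap A.subtype P, hP⟩ : Fbar M) ≠ 0 := by
    intro h0
    have h1 : coeffMap A.subtype P = 0 := congrArg Subtype.val h0
    have h2 : P = 0 := by
      apply coeffMap_injective_of_injective A.subtype Subtype.val_injective
      rw [h1, map_zero]
    exact hne (by rw [h2, map_zero])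
  have hQb0 : (⟨coeffMap A.subtype Q, hQ⟩ : Fbar M) ≠ 0 := by
    intro h0
    have h1 : coeffMap A.subtype Q = 0 := congrArg Subtype.val h0
    have h2 : Q = 0 := by
      apply coeffMap_injective_of_injective A.subtype Subtype.val_injective
      rw [h1, map_zero]
    exact hQred (by rw [h2, map_zero])
  obtain ⟨DP, hDP, -⟩ := Fermat.Agent.RED.TOP.FbarFacts20.exists_divisor_bar M hPb0
  obtain ⟨DQ, hDQ, -⟩ := Fermat.Agent.RED.TOP.FbarFacts20.exists_divisor_bar M hQb0
  obtain ⟨K₃, hK₃, hU⟩ := hunif (DP.support ∪ DQ.support)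
  have := hK₃
  -- 3. the number field
  have hKfd : FiniteDimensional ℚ ↥(K₂ ⊔ K₃) := inferInstance
  have hK₀K : K₀ ≤ K₂ ⊔ K₃ := (hK₀₁.trans hK₁₂).trans le_sup_left
  have hK₃K : K₃ ≤ K₂ ⊔ K₃ := le_sup_right
  obtain ⟨p, hp, hpeq⟩ := exists_lift_of_le (hK₁₂.trans le_sup_left : K₁ ≤ K₂ ⊔ K₃) hp₁
  obtain ⟨q, hq, hqeq⟩ := exists_lift_of_le (le_sup_left : K₂ ≤ K₂ ⊔ K₃) hq₂
  generalize K₂ ⊔ K₃ = K at hKfd hK₀K hK₃K p hp hpeq q hq hqeq
  have hpP : coeffMap (algebraMap K Qbar) p = coeffMap A.subtype P := hpeq.trans hp₁eq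
  have hqQ : coeffMap (algebraMap K Qbar) q = coeffMap A.subtype Q := hqeq.trans hq₂eq
  -- 4. coefficients in `A ∩ K`
  have hpc : ∀ n, p.coeff n ∈ AK A K := fun n => by
    rw [mem_AK_iff]
    have h := congrArg (fun x : LaurentSeries Qbar => x.coeff n) hpP
    simp only [coeffMap_coeff] at h
    have h' : ((p.coeff n : K) : Qbar) = ((P.coeff n : A) : Qbar) := h
    rw [h']
    exact (P.coeff n).2
  have hqc : ∀ n, q.coeff n ∈ AK A K := fun n => by
    rw [mem_AK_iff]
    have h := congrArg (fun x : LaurentSeries Qbar => x.coeff n) hqQ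
    simp only [coeffMap_coeff] at h
    have h' : ((q.coeff n : K) : Qbar) = ((Q.coeff n : A) : Qbar) := h
    rw [h']
    exact (Q.coeff n).2
  obtain ⟨PK, hPK⟩ := exists_lift_coeff (AK A K) p hpc
  obtain ⟨QK, hQK⟩ := exists_lift_coeff (AK A K) q hqc
  have hPKmem : coeffMap (AK A K).subtype PK ∈ FK M K := by rw [hPK]; exact hp
  have hQKmem : coeffMap (AK A K).subtype QK ∈ FK M K := by rw [hQK]; exact hq
  -- 5. reductions
  have hinclP : coeffMap (incl A K) PK = P := by
    apply coeffMap_injective_of_injective A.subtype Subtype.val_injective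
    rw [← hpP, ← hPK, coeffMap_coeffMap, coeffMap_coeffMap]
    exact coeffMap_congr (RingHom.ext fun x => rfl) PK
  have hinclQ : coeffMap (incl A K) QK = Q := by
    apply coeffMap_injective_of_injective A.subtype Subtype.val_injective
    rw [← hqQ, ← hQK, coeffMap_coeffMap, coeffMap_coeffMap]
    exact coeffMap_congr (RingHom.ext fun x => rfl) QK
  have hcomp : (resMap A K).comp (IsLocalRing.residue (AK A K))
      = (IsLocalRing.residue A).comp (incl A K) :=
    RingHom.ext fun x => resMap_residue A K x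
  have hredK : ∀ X : LaurentSeries (AK A K),
      coeffMap (resMap A K) (coeffMap (IsLocalRing.residue (AK A K)) X)
        = coeffMap (IsLocalRing.residue A) (coeffMap (incl A K) X) := fun X => by
    rw [coeffMap_coeffMap, coeffMap_coeffMap, hcomp]
  have hinj := coeffMap_injective_of_injective (resMap A K) (resMap_injective A K)
  have hred' : coeffMap (IsLocalRing.residue (AK A K)) PK
      = coeffMap (IsLocalRing.residue (AK A K)) QK := by
    apply hinj
    rw [hredK, hredK, hinclP, hinclQ, hred]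
  have hne' : coeffMap (IsLocalRing.residue (AK A K)) PK ≠ 0 := by
    intro h0
    apply hne
    rw [← hinclP, ← hredK, h0, map_zero]
  -- 6. base change of `p`, `q`
  have hbcP : baseChangeHom M K ⟨coeffMap (AK A K).subtype PK, hPKmem⟩
      = (⟨coeffMap A.subtype P, hP⟩ : Fbar M) := by
    apply Subtype.ext
    rw [coe_baseChangeHom]
    show coeffMap (algebraMap K Qbar) (coeffMap (AK A K).subtype PK) = _
    rw [hPK, hpP]
  have hbcQ : baseChangeHom M K ⟨coeffMap (AK A K).subtype QK, hQKmem⟩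
      = (⟨coeffMap A.subtype Q, hQ⟩ : Fbar M) := by
    apply Subtype.ext
    rw [coe_baseChangeHom]
    show coeffMap (algebraMap K Qbar) (coeffMap (AK A K).subtype QK) = _
    rw [hQK, hqQ]
  -- 7. the place hypothesis over `K`
  have hordK : ∀ w : Place K (FK M K),
      (m : ℤ) ∣ w.ord (⟨coeffMap (AK A K).subtype PK, hPKmem⟩ : FK M K) -
        w.ord (⟨coeffMap (AK A K).subtype QK, hQKmem⟩ : FK M K) := by
    apply dvd_ord_sub_of_bar M K _ _ m
    · intro v
      rw [hbcP, hbcQ]
      exact hord v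
    · intro v hv
      rw [hbcP, hbcQ] at hv
      apply hU K hKfd hK₃K v
      rw [Finset.mem_union, Finsupp.mem_support_iff, Finsupp.mem_support_iff, hDP, hDQ]
      by_contra hcon
      rw [not_or, not_not, not_not] at hcon
      apply hv
      rw [hcon.1, hcon.2, sub_zero]
  -- 8. `(CL)` over `K` and root extraction
  obtain ⟨c, s, hc0, hs⟩ := hnum K hKfd hK₀K PK QK hPKmem hQKmem hred' hne' m hℓm hordK
  obtain ⟨d, hd⟩ := IsAlgClosed.exists_pow_nat_eq ((c : K) : Qbar) hm
  have hcQ : ((c : K) : Qbar) ≠ 0 := by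
    intro h0
    apply hc0
    exact_mod_cast h0
  have hd0 : d ≠ 0 := by
    rintro rfl
    rw [zero_pow hm.ne'] at hd
    exact hcQ hd.symm
  have hdF : algebraMap Qbar (Fbar M) d ≠ 0 := by
    rw [Ne, map_eq_zero_iff _ (algebraMap Qbar (Fbar M)).injective]
    exact hd0
  refine ⟨baseChangeHom M K s * (algebraMap Qbar (Fbar M) d)⁻¹, ?_⟩
  have h1 := congrArg (baseChangeHom M K) hs
  rw [map_mul, map_pow, hbcQ, Algebra.smul_def, map_mul, baseChangeHom_algebraMap, hbcP, ← hd,
    map_pow] at h1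
  rw [mul_pow, inv_pow, mul_assoc, mul_comm _ (⟨coeffMap A.subtype Q, hQ⟩ : Fbar M), ← mul_assoc,
    h1, mul_comm, ← mul_assoc, inv_mul_cancel₀ (pow_ne_zero m hdF), one_mul]

end Fermat.Agent.RED.DESC.DescMain12
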