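/-
RED/DESC, chapter theorem (helper12): `descStepGe : DescStepGe ℓ M A` for every level `M`, prime-free:
`DescMain12.descStepGe_of` (assembly) + `UnifDescent14.unif_descent` (uniformiser descent, helper14).
-/
import Fermat.Agent.RED.DESC.DescMain12
import Fermat.Agent.RED.DESC.UnifDescent14

set_option autoImplicit false

namespace Fermat.Agent.RED.DESC.DescFinal12

open Fermat.Agent.RED.Interface4 Fermat.Agent.RED.InterfaceGe4

/-- **Chapter DESC**: `(CL)` over all number fields `K ⊇ K₀` implies `(CL)` over `ℚ̄`. -/
theorem descStepGe (ℓ M : ℕ) [NeZero M] (A : ValuationSubring Qbar) : DescStepGe ℓ M A :=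
  DescMain12.descStepGe_of ℓ M A fun S => UnifDescent14.unif_descent M S

end Fermat.Agent.RED.DESC.DescFinal12
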