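/-
Program H (S18), chapter RED/DESC (helper14): the chapter's final theorem `descStepGe` in the literal
shape requested by the integrator — `DescMain12.descStepGe_of` (assembly, helper12) applied to
`UnifDescent14.unif_descent` (uniformiser descent, helper14).
-/
import Fermat.Agent.RED.DESC.DescMain12
import Fermat.Agent.RED.DESC.UnifDescent14

set_option autoImplicit false

namespace Fermat.Agent.RED.DESC.DescFinal14

open Fermat.Agent.RED.Interface4

/-- uniformiser descent in the `DescMain12` vocabulary. -/
theorem unifDescent (M : ℕ) : DescMain12.UnifDescent M :=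
  fun S => UnifDescent14.unif_descent M S

/-- **Chapter DESC**: `(CL)` over all number fields `K ⊇ K₀` implies `(CL)` over `ℚ̄`. -/
theorem descStepGe (M : ℕ) [NeZero M] (ℓ : ℕ) [Fact ℓ.Prime] (_hℓM : ¬ ℓ ∣ M)
    (A : ValuationSubring Qbar) (_hA : A.LiesOverPrime ℓ) :
    Fermat.Agent.RED.InterfaceGe4.DescStepGe ℓ M A :=
  DescMain12.descStepGe_of ℓ M A (unifDescent M)

end Fermat.Agent.RED.DESC.DescFinal14
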