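/-
Program H (S18), chapter RED/DESC, helper1: a nontrivial valuation subring of a number field is a
discrete valuation ring (it is the localisation of the ring of integers at a nonzero prime), with
finite residue field; applied to `A_K = A ∩ K` for a valuation subring `A` of an algebraic extension
`L` of `ℚ` lying over a prime `ℓ`, and a finite subextension `K`.
-/
import Mathlib
import Fermat.Prelude.Def_FLTPrelim_Ramification

set_option autoImplicit false
set_option linter.unusedSectionVars false

noncomputable section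

namespace Fermat.Agent.RED.DESC.DvrNumberField1

open NumberField IsDedekindDomain IsLocalRing

section NumberField

variable {K : Type*} [Field K] [NumberField K] (B : ValuationSubring K)

/-- The ring of integers is contained in every valuation subring. -/
theorem integer_mem (x : 𝓞 K) : (x : K) ∈ B := by
  have h1 : IsIntegral ℤ (x : K) := x.2
  have h2 : IsIntegral B (x : K) := h1.tower_top
  obtain ⟨y, hy⟩ := (IsIntegrallyClosed.isIntegral_iff (R := B) (K := K)).1 h2
  rw [← hy]
  exact y.2

/-- The inclusion `𝓞 K → B`. -/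
def integerHom : 𝓞 K →+* B where
  toFun x := ⟨(x : K), integer_mem B x⟩
  map_one' := by ext; simp
  map_mul' x y := by ext; simp
  map_zero' := by ext; simp
  map_add' x y := by ext; simp

@[simp] theorem coe_integerHom (x : 𝓞 K) : ((integerHom B x : B) : K) = (x : K) := rfl

/-- The centre of `B` on `𝓞 K`. -/
def centre : Ideal (𝓞 K) := (maximalIdeal B).comap (integerHom B)

instance : (centre B).IsPrime := Ideal.comap_isPrime _ _

theorem mem_centre_iff (x : 𝓞 K) : x ∈ centre B ↔ ¬ IsUnit (integerHom B x) := by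
  rw [centre, Ideal.mem_comap, mem_maximalIdeal, mem_nonunits_iff]

theorem centre_ne_bot (hB : B ≠ ⊤) : centre B ≠ ⊥ := by
  intro h
  apply hB
  rw [eq_top_iff]
  intro x _
  by_contra hx
  have hx0 : x ≠ 0 := fun h0 => hx (h0 ▸ B.zero_mem)
  have hxi : x⁻¹ ∈ B := (B.mem_or_inv_mem x).resolve_left hx
  -- `x⁻¹` is a nonunit of `B`
  have hnu : ¬ IsUnit (⟨x⁻¹, hxi⟩ : B) := by
    intro hu
    obtain ⟨u, hu⟩ := hu
    have h1 : ((u⁻¹ : Bˣ) : B) * (⟨x⁻¹, hxi⟩ : B) = 1 := by rw [← hu]; exact u.inv_mul
    have h2 : (((u⁻¹ : Bˣ) : B) : K) * x⁻¹ = 1 := congrArg Subtype.val h1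
    have h3 : (((u⁻¹ : Bˣ) : B) : K) = x := by
      field_simp at h2
      exact h2
    exact hx (h3 ▸ ((u⁻¹ : Bˣ) : B).2)
  -- write `x⁻¹ = a / b` with `a b ∈ 𝓞 K`
  obtain ⟨a, b, hb, hab⟩ := IsFractionRing.div_surjective (A := 𝓞 K) (x⁻¹ : K)
  have hb0 : (algebraMap (𝓞 K) K b) ≠ 0 := by
    intro h0
    exact nonZeroDivisors.ne_zero hb ((map_eq_zero_iff _ (IsFractionRing.injective (𝓞 K) K)).1 h0)
  have ha : a ∈ centre B := by
    rw [mem_centre_iff]
    intro hu
    apply hnu
    have h4 : (⟨x⁻¹, hxi⟩ : B) * integerHom B b = integerHom B a := by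
      ext
      show x⁻¹ * (algebraMap (𝓞 K) K b) = algebraMap (𝓞 K) K a
      rw [← hab]
      field_simp
    exact isUnit_of_mul_isUnit_left (h4 ▸ hu)
  rw [h, Ideal.mem_bot] at ha
  rw [ha, map_zero, zero_div] at hab
  exact inv_ne_zero hx0 hab.symm

/-- The centre of `B` as a height-one prime. -/
def centreSpec (hB : B ≠ ⊤) : HeightOneSpectrum (𝓞 K) :=
  ⟨centre B, inferInstance, centre_ne_bot B hB⟩

theorem valuationSubringAtPrime_le (hB : B ≠ ⊤) :
    HeightOneSpectrum.valuationSubringAtPrime K (centreSpec B hB) ≤ B := by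
  rintro x ⟨a, s, hs, rfl⟩
  have hs' : IsUnit (integerHom B s) := by
    by_contra hns
    exact hs ((mem_centre_iff B s).2 hns)
  obtain ⟨u, hu⟩ := hs'
  have h1 : ((u⁻¹ : Bˣ) : B) * integerHom B s = 1 := by rw [← hu]; exact u.inv_mul
  have h2 : (((u⁻¹ : Bˣ) : B) : K) * (algebraMap (𝓞 K) K s) = 1 := congrArg Subtype.val h1
  have hs0 : (algebraMap (𝓞 K) K s) ≠ 0 := right_ne_zero_of_mul_eq_one h2
  have h3 : (algebraMap (𝓞 K) K s)⁻¹ = (((u⁻¹ : Bˣ) : B) : K) := by
    field_simp
    rw [mul_comm]
    exact h2.symm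
  rw [h3]
  exact B.mul_mem _ _ (integer_mem B a) ((u⁻¹ : Bˣ) : B).2

/-- A nontrivial valuation subring of a number field is the localisation of `𝓞 K` at its centre. -/
theorem eq_valuationSubringAtPrime (hB : B ≠ ⊤) :
    HeightOneSpectrum.valuationSubringAtPrime K (centreSpec B hB) = B :=
  ValuationSubring.eq_of_le_of_ne_top _ (valuationSubringAtPrime_le B hB) hB

/-- **A nontrivial valuation subring of a number field is a DVR.** -/
theorem isDiscreteValuationRing (hB : B ≠ ⊤) : IsDiscreteValuationRing B := by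
  have h := eq_valuationSubringAtPrime B hB
  have h1 : IsDiscreteValuationRing
      (HeightOneSpectrum.valuationSubringAtPrime K (centreSpec B hB)) :=
    IsLocalization.AtPrime.isDiscreteValuationRing_of_dedekind_domain (𝓞 K)
      (centreSpec B hB).ne_bot _
  rw [h] at h1
  exact h1

end NumberField

end Fermat.Agent.RED.DESC.DvrNumberField1
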